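import Mathlib
import Fermat.Agent.MUL.Orig.S18.KeyBasic
import Fermat.Agent.MUL.Lib.GoodRed.ModularData

set_option autoImplicit false

/-!
# S18 / KEY LEMMA: local analysis

* more lemmas on `ord` (finite sums and products, constants);
* `kl_simple_zero`: a unit of `Ov`, regular on a fibre, whose residue has a simple zero at `Q` and
  which vanishes at `P1` in the fibre, has divisor `P1` on the fibre;
* `KLLocal`, `kl_exists_local`: the value `a` of the parameter `t i` at a point `P i ≠ R i` of the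
  residue disc of `Rb i` is a nonzero non-unit of `A`, and `t i - a` has divisor `P i` on the disc;
* `KLExp`: first order expansions `z = 1 + a c + a² y`.
-/

noncomputable section

open AlgebraicCurve

namespace Fermat.Agent.S18Key

variable {K F k Fk : Type*} [Field K] [Field F] [Algebra K F] [Field k] [Field Fk] [Algebra k Fk]

/-! ### more on `ord` -/

theorem kl_ord_const_mul (v : Place K F) {c : K} (hc : c ≠ 0) (f : F) :
    v.ord (algebraMap K F c * f) = v.ord f := by
  rcases eq_or_ne f 0 with rfl | hf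
  · simp
  rw [v.ord_mul (by simpa using hc) hf, Fermat.Agent.S24Res.ord_algebraMap, zero_add]

theorem kl_ord_mul_const (v : Place K F) {c : K} (hc : c ≠ 0) (f : F) :
    v.ord (f * algebraMap K F c) = v.ord f := by
  rw [mul_comm, kl_ord_const_mul v hc]

theorem kl_ord_div_const (v : Place K F) {c : K} (hc : c ≠ 0) (f : F) :
    v.ord (f / algebraMap K F c) = v.ord f := by
  rw [div_eq_mul_inv, ← map_inv₀, kl_ord_mul_const v (inv_ne_zero hc)]

theorem kl_ord_sum_ge (v : Place K F) {ι : Type*} (I : Finset ι) (f : ι → F) {n : ℤ} (hn : n ≤ 0)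
    (h : ∀ i ∈ I, n ≤ v.ord (f i)) : n ≤ v.ord (∑ i ∈ I, f i) := by
  classical
  induction I using Finset.induction_on with
  | empty => simpa using hn
  | insert a s ha ih =>
    rw [Finset.sum_insert ha]
    exact ord_add_ge_of_ge v hn (h a (Finset.mem_insert_self a s))
      (ih fun i hi => h i (Finset.mem_insert_of_mem hi))

theorem kl_ord_prod (v : Place K F) {ι : Type*} (I : Finset ι) (f : ι → F)
    (h : ∀ i ∈ I, f i ≠ 0) : v.ord (∏ i ∈ I, f i) = ∑ i ∈ I, v.ord (f i) := by
  classical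
  induction I using Finset.induction_on with
  | empty => simp
  | insert a s ha ih =>
    have h1 : f a ≠ 0 := h a (Finset.mem_insert_self a s)
    have h2 : ∀ i ∈ s, f i ≠ 0 := fun i hi => h i (Finset.mem_insert_of_mem hi)
    rw [Finset.prod_insert ha, Finset.sum_insert ha,
      v.ord_mul h1 (Finset.prod_ne_zero_iff.mpr h2), ih h2]

theorem kl_ord_pow (v : Place K F) (f : F) (n : ℕ) : v.ord (f ^ n) = n * v.ord f := by
  have := v.ord_zpow f n
  simpa using this

theorem kl_ord_sub_ge_of_ge (v : Place K F) {f g : F} {n : ℤ} (hn : n ≤ 0)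
    (hf : n ≤ v.ord f) (hg : n ≤ v.ord g) : n ≤ v.ord (f - g) := by
  rw [sub_eq_add_neg]
  exact ord_add_ge_of_ge v hn hf (by rwa [ord_neg'])

theorem kl_ne_zero_of_ord_ne_zero (v : Place K F) {f : F} (h : v.ord f ≠ 0) : f ≠ 0 := by
  rintro rfl
  simp at h

/-- a function with a zero at `v` takes the value `0` there. -/
theorem kl_const_eq_zero_of_ord_pos (v : Place K F) {f : F} (hf : 0 < v.ord f) {c : K}
    (h : f = algebraMap K F c ∨ 0 < v.ord (f - algebraMap K F c)) : c = 0 := by
  by_contra hc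
  have hcF : algebraMap K F c ≠ 0 := by simpa using hc
  have hc0 : v.ord (algebraMap K F c) = 0 := Fermat.Agent.S24Res.ord_algebraMap v c
  rcases h with h | h
  · rw [h, hc0] at hf
    exact lt_irrefl _ hf
  · have hf0 : f ≠ 0 := kl_ne_zero_of_ord_ne_zero v hf.ne'
    have hg0 : -(f - algebraMap K F c) ≠ 0 := neg_ne_zero.mpr (kl_ne_zero_of_ord_ne_zero v h.ne')
    have hsum : f + -(f - algebraMap K F c) = algebraMap K F c := by ring
    have h1 := Fermat.Agent.S24Res.ord_add_ge v hf0 hg0 (by rw [hsum]; exact hcF)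
    rw [hsum, hc0, ord_neg'] at h1
    have h2 : 0 < min (v.ord f) (v.ord (f - algebraMap K F c)) := lt_min hf h
    omega

/-! ### more on `red` -/

variable {S : RedSetup K F k Fk}

theorem kl_red_sum {ι : Type*} (I : Finset ι) (f : ι → F) (h : ∀ i ∈ I, f i ∈ S.Ov) :
    S.red (∑ i ∈ I, f i) = ∑ i ∈ I, S.red (f i) := by
  classical
  induction I using Finset.induction_on with
  | empty => simp [red_zero]
  | insert a s ha ih =>
    have h2 : ∀ i ∈ s, f i ∈ S.Ov := fun i hi => h i (Finset.mem_insert_of_mem hi)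
    rw [Finset.sum_insert ha, Finset.sum_insert ha,
      red_add (h a (Finset.mem_insert_self a s)) (sum_mem h2), ih h2]

/-- the residue of a constant of the maximal ideal of `A` vanishes. -/
theorem kl_red_const_eq_zero {c : K} (hc : c ∈ S.A) (hci : c⁻¹ ∉ S.A) :
    S.red (algebraMap K F c) = 0 := by
  rw [red_const hc, (res_eq_zero_iff hc).mpr (Or.inr hci), map_zero]

/-- the residue of a unit constant of `A` does not vanish. -/
theorem kl_red_const_ne_zero {c : K} (hc0 : c ≠ 0) (hc : c ∈ S.A) (hci : c⁻¹ ∈ S.A) :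
    S.red (algebraMap K F c) ≠ 0 :=
  (isU_const hc0 hc hci).red_ne_zero

/-- the order of `red c * f`, `c` a constant of `A`: either the product vanishes or the order is
that of `f`. -/
theorem kl_ord_red_const_mul (Q : Place k Fk) {c : K} (hc : c ∈ S.A) (f : Fk) :
    S.red (algebraMap K F c) * f = 0 ∨
      Q.ord (S.red (algebraMap K F c) * f) = Q.ord f := by
  rw [red_const hc]
  by_cases h0 : S.res ⟨c, hc⟩ = 0
  · left
    rw [h0, map_zero, zero_mul]
  · right
    exact kl_ord_const_mul Q h0 f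

theorem kl_ord_red_const_mul_ge (Q : Place k Fk) {c : K} (hc : c ∈ S.A) (f : Fk) {n : ℤ}
    (hn : n ≤ 0) (hf : n ≤ Q.ord f) : n ≤ Q.ord (S.red (algebraMap K F c) * f) := by
  rcases kl_ord_red_const_mul (S := S) Q hc f with h | h
  · rw [h]; simpa using hn
  · rw [h]; exact hf

/-- if all orders of a unit vanish on a fibre, the residue has order `0` there. -/
theorem kl_push_zero {f : F} (hf : S.IsU f) (Q : Place k Fk)
    (h : ∀ P, S.r P = Q → P.ord f = 0) : Q.ord (S.red f) = 0 := by
  have h1 := push_nonneg hf Q fun P hP => (h P hP).ge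
  have h2 := push_nonneg hf.inv Q fun P hP => by
    rw [P.ord_inv, h P hP]; simp
  rw [hf.red_inv, Q.ord_inv] at h2
  omega

/-! ### simple zeros -/

/-- a unit of `Ov`, regular on the fibre of `Q`, whose residue has a simple zero at `Q` and which
vanishes at `P1` in the fibre: its divisor on the fibre is `P1`. -/
theorem kl_simple_zero {f : F} (hf : S.IsU f) (Q : Place k Fk)
    (hreg : ∀ P, S.r P = Q → 0 ≤ P.ord f) (h1 : Q.ord (S.red f) = 1) (P1 : Place K F)
    (hP1 : S.r P1 = Q) (hz : 0 < P1.ord f) (v : Place K F) (hv : S.r v = Q) :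
    v.ord f = Finsupp.single P1 (1 : ℤ) v := by
  have hP1o : P1.ord f = 1 := push_eq_one_ord hf Q hreg h1 P1 hP1 hz
  by_cases hvP : v = P1
  · subst hvP
    rw [Finsupp.single_eq_same, hP1o]
  · rw [Finsupp.single_eq_of_ne (by exact hvP)]
    have h2 := push_ge_two hf Q hreg v P1 hvP hv hP1
    have h3 := hreg v hv
    omega

/-! ### the local data at an index `i` with `P i ≠ R i` -/

/-- local data at an index `i`, for a point `Pi ≠ R i` of the residue disc of `Rb i`. -/
structure KLLocal (S : RedSetup K F k Fk) {g : ℕ} (N : NSData S g) (i : Fin g)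
    (Pi : Place K F) (a : K) : Prop where
  a_ne : a ≠ 0
  a_mem : a ∈ S.A
  a_inv : a⁻¹ ∉ S.A
  t_isU : S.IsU (N.t i)
  s_isU : S.IsU (N.t i - algebraMap K F a)
  red_s : S.red (N.t i - algebraMap K F a) = S.red (N.t i)
  ord_t_other : ∀ j, j ≠ i → ∀ v, S.r v = N.Rb j → v.ord (N.t i) = 0
  ord_s_other : ∀ j, j ≠ i → ∀ v, S.r v = N.Rb j → v.ord (N.t i - algebraMap K F a) = 0
  ord_t_self : ∀ v, S.r v = N.Rb i → v.ord (N.t i) = Finsupp.single (N.R i) (1 : ℤ) v
  ord_s_self : ∀ v, S.r v = N.Rb i →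
    v.ord (N.t i - algebraMap K F a) = Finsupp.single Pi (1 : ℤ) v

theorem kl_red_t {g : ℕ} (N : NSData S g) (i : Fin g) :
    S.red (N.t i) = S.ρ ⟨N.t i, N.t_mem i⟩ := red_of_mem (N.t_mem i)

theorem kl_ord_red_t_self {g : ℕ} (N : NSData S g) (i : Fin g) :
    (N.Rb i).ord (S.red (N.t i)) = 1 := by
  rw [kl_red_t]; exact N.ord_t_self i

theorem kl_ord_red_t_other {g : ℕ} (N : NSData S g) (i j : Fin g) (h : i ≠ j) :
    (N.Rb j).ord (S.red (N.t i)) = 0 := by
  rw [kl_red_t]; exact N.ord_t_other i j h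

theorem kl_t_isU {g : ℕ} (N : NSData S g) (i : Fin g) : S.IsU (N.t i) := by
  refine isU_of_red_ne_zero (N.t_mem i) ?_
  apply kl_ne_zero_of_ord_ne_zero (N.Rb i)
  rw [kl_ord_red_t_self]
  exact one_ne_zero

theorem kl_exists_local {g : ℕ} (N : NSData S g) (i : Fin g) (Pi : Place K F)
    (hr : S.r Pi = N.Rb i) (hne : Pi ≠ N.R i) : ∃ a : K, KLLocal S N i Pi a := by
  have htU : S.IsU (N.t i) := kl_t_isU N i
  have htreg : ∀ j P, S.r P = N.Rb j → 0 ≤ P.ord (N.t i) := fun j P hP => N.t_reg i j P hP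
  -- the value of `t i` at `Pi`
  obtain ⟨a, ha⟩ := Fermat.Agent.RR.exists_const_sub S.hF Pi (htreg i Pi hr)
  have hregP : ∀ P', S.r P' = S.r Pi → 0 ≤ P'.ord (N.t i) := fun P' hP' =>
    htreg i P' (hP'.trans hr)
  have haA : a ∈ S.A := value_mem_A (N.t_mem i) Pi hregP a ha
  have hvr := value_red (N.t_mem i) Pi hregP a haA ha
  rw [hr, red_const haA] at hvr
  have hres : S.res ⟨a, haA⟩ = 0 :=
    kl_const_eq_zero_of_ord_pos (N.Rb i) (by rw [kl_ord_red_t_self]; exact one_pos) hvr
  have ha0 : a ≠ 0 := by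
    rintro rfl
    rw [map_zero, sub_zero] at ha
    rcases ha with ha | ha
    · exact htU.ne_zero ha
    · exact hne (push_eq_one_unique htU (N.Rb i) (htreg i) (kl_ord_red_t_self N i) Pi (N.R i) hr
        (N.r_R i) ha (N.t_R i))
  have hai : a⁻¹ ∉ S.A := by
    rcases (res_eq_zero_iff haA).mp hres with h | h
    · exact absurd h ha0
    · exact h
  have hs : 0 < Pi.ord (N.t i - algebraMap K F a) := by
    rcases ha with ha | ha
    · have := N.t_R i
      rw [ha, Fermat.Agent.S24Res.ord_algebraMap] at this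
      exact absurd this (lt_irrefl _)
    · exact ha
  have haO : algebraMap K F a ∈ S.Ov := (const_mem_iff a).mpr haA
  have hsmem : N.t i - algebraMap K F a ∈ S.Ov := sub_mem (N.t_mem i) haO
  have hreds : S.red (N.t i - algebraMap K F a) = S.red (N.t i) := by
    rw [red_sub (N.t_mem i) haO, kl_red_const_eq_zero haA hai, sub_zero]
  have hsU : S.IsU (N.t i - algebraMap K F a) :=
    isU_of_red_ne_zero hsmem (by rw [hreds]; exact htU.red_ne_zero)
  have hsreg : ∀ j P, S.r P = N.Rb j → 0 ≤ P.ord (N.t i - algebraMap K F a) := fun j P hP =>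
    ord_nonneg_sub P (htreg j P hP) (ord_const_nonneg P a)
  refine ⟨a, ⟨ha0, haA, hai, htU, hsU, hreds, ?_, ?_, ?_, ?_⟩⟩
  · intro j hj v hv
    exact push_eq_zero htU (N.Rb j) (htreg j) (kl_ord_red_t_other N i j (Ne.symm hj)) v hv
  · intro j hj v hv
    exact push_eq_zero hsU (N.Rb j) (hsreg j)
      (by rw [hreds]; exact kl_ord_red_t_other N i j (Ne.symm hj)) v hv
  · intro v hv
    exact kl_simple_zero htU (N.Rb i) (htreg i) (kl_ord_red_t_self N i) (N.R i) (N.r_R i)
      (N.t_R i) v hv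
  · intro v hv
    exact kl_simple_zero hsU (N.Rb i) (hsreg i)
      (by rw [hreds]; exact kl_ord_red_t_self N i) Pi hr hs v hv

/-! ### first order expansions -/

/-- `z = 1 + a c + a² y` with `y ∈ Ov`. -/
def KLExp (S : RedSetup K F k Fk) (a z c : F) : Prop :=
  ∃ y ∈ S.Ov, z = 1 + a * c + a ^ 2 * y

theorem KLExp.base (a c : F) : KLExp S a (1 + a * c) c :=
  ⟨0, zero_mem _, by ring⟩

theorem KLExp.one (a : F) : KLExp S a 1 0 :=
  ⟨0, zero_mem _, by ring⟩

theorem KLExp.mul {a z c z' c' : F} (ha : a ∈ S.Ov) (hc : c ∈ S.Ov) (hc' : c' ∈ S.Ov)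
    (h : KLExp S a z c) (h' : KLExp S a z' c') : KLExp S a (z * z') (c + c') := by
  obtain ⟨y, hy, rfl⟩ := h
  obtain ⟨y', hy', rfl⟩ := h'
  refine ⟨y + y' + c * c' + a * (c * y' + c' * y) + a ^ 2 * (y * y'), ?_, by ring⟩
  exact add_mem (add_mem (add_mem (add_mem hy hy') (mul_mem hc hc'))
    (mul_mem ha (add_mem (mul_mem hc hy') (mul_mem hc' hy)))) (mul_mem (pow_mem ha 2) (mul_mem hy hy'))

theorem KLExp.pow {a z c : F} (ha : a ∈ S.Ov) (hc : c ∈ S.Ov) (h : KLExp S a z c) (n : ℕ) :
    KLExp S a (z ^ n) ((n : F) * c) := by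
  induction n with
  | zero => simpa using KLExp.one (S := S) a
  | succ n ih =>
    have h1 : ((n : F) * c) ∈ S.Ov := mul_mem (natCast_mem _ n) hc
    have := KLExp.mul ha h1 hc ih h
    rw [pow_succ]
    have e : ((n + 1 : ℕ) : F) * c = (n : F) * c + c := by push_cast; ring
    rw [e]
    exact this

theorem KLExp.prod {ι : Type*} (I : Finset ι) {a : F} (z c : ι → F) (ha : a ∈ S.Ov)
    (hc : ∀ i ∈ I, c i ∈ S.Ov) (h : ∀ i ∈ I, KLExp S a (z i) (c i)) :
    KLExp S a (∏ i ∈ I, z i) (∑ i ∈ I, c i) := by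
  classical
  induction I using Finset.induction_on with
  | empty => simpa using KLExp.one (S := S) a
  | insert b s hb ih =>
    have hc2 : ∀ i ∈ s, c i ∈ S.Ov := fun i hi => hc i (Finset.mem_insert_of_mem hi)
    have h2 : ∀ i ∈ s, KLExp S a (z i) (c i) := fun i hi => h i (Finset.mem_insert_of_mem hi)
    rw [Finset.prod_insert hb, Finset.sum_insert hb]
    exact KLExp.mul ha (hc b (Finset.mem_insert_self b s)) (sum_mem hc2)
      (h b (Finset.mem_insert_self b s)) (ih hc2 h2)

end Fermat.Agent.S18Key
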