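import Mathlib
import Fermat.Agent.MUL.Orig.S18.KeyBasic
import Fermat.Agent.MUL.S18.NSBuild

set_option autoImplicit false

/-!
# S18 / KEY LEMMA, step 1: Jacobi inversion (helper7)

A divisor class of degree `0` with principal reduction is represented by `∑ P_i - ∑ R_i` with
`P_i` in the residue disc of `Rb_i`.
-/

noncomputable section

open AlgebraicCurve

namespace Fermat.Agent.S18Key

open Fermat.Agent.RR

variable {K F k Fk : Type*} [Field K] [Field F] [Algebra K F] [Field k] [Field Fk] [Algebra k Fk]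

/-- the coefficient of `∑ single (a i) 1` at a point of an injective family. -/
theorem sum_single_apply_self {α ι : Type*} [Fintype ι] (a : ι → α) (ha : Function.Injective a)
    (i : ι) : (∑ j, Finsupp.single (a j) (1 : ℤ)) (a i) = 1 := by
  classical
  rw [Finsupp.finsetSum_apply, Finset.sum_eq_single i]
  · simp
  · intro j _ hji
    rw [Finsupp.single_apply, if_neg fun h => hji (ha h)]
  · intro h
    exact absurd (Finset.mem_univ i) h

theorem sum_single_apply_other {α ι : Type*} [Fintype ι] (a : ι → α) (v : α)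
    (hv : ∀ i, v ≠ a i) : (∑ j, Finsupp.single (a j) (1 : ℤ)) v = 0 := by
  classical
  rw [Finsupp.finsetSum_apply]
  refine Finset.sum_eq_zero fun i _ => ?_
  rw [Finsupp.single_apply, if_neg (Ne.symm (hv i))]

/-- **Jacobi inversion in the kernel of reduction.** -/
theorem exists_jacobi (S : RedSetup K F k Fk) (g : ℕ)
    (hRI : ∀ D : Divisor K F, Divisor.degree D = g →
      ∃ φ : F, φ ≠ 0 ∧ ∀ P : Place K F, 0 ≤ D P + P.ord φ)
    (N : NSData S g) (D : Divisor K F) (hdeg : Divisor.degree D = 0)
    (hred : Finsupp.mapDomain S.r D ∈ Divisor.principal (K := k) (F := Fk)) :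
    ∃ (φ : F) (P : Fin g → Place K F), φ ≠ 0 ∧ (∀ i, S.r (P i) = N.Rb i) ∧
      ∀ v : Place K F, D v + v.ord φ =
        ∑ i, (Finsupp.single (P i) (1 : ℤ) v - Finsupp.single (N.R i) (1 : ℤ) v) := by
  classical
  have hRinj : Function.Injective N.R := fun i j hij =>
    N.Rb_inj (by rw [← N.r_R i, ← N.r_R j, hij])
  set DR : Divisor K F := ∑ i, Finsupp.single (N.R i) (1 : ℤ) with hDR
  have hdegR : Divisor.degree DR = g := by
    rw [hDR, map_sum]
    simp [Divisor.degree_single, S.hF.deg_one]
  obtain ⟨φ0, hφ0, hE0⟩ := hRI (D + DR) (by rw [map_add, hdeg, hdegR, zero_add])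
  obtain ⟨c, hc, hU⟩ := exists_scale (S := S) hφ0
  set φ : F := φ0 / algebraMap K F c with hφ
  have hcF : algebraMap K F c ≠ 0 := by simpa using hc
  have hord : ∀ v : Place K F, v.ord φ = v.ord φ0 := by
    intro v
    rw [hφ, div_eq_mul_inv, v.ord_mul hφ0 (inv_ne_zero hcF), v.ord_inv,
      Fermat.Agent.S24Res.ord_algebraMap, neg_zero, add_zero]
  set E : Divisor K F := D + DR + divOf S.hF φ with hE
  have hEapp : ∀ v, E v = D v + DR v + v.ord φ := fun v => by
    rw [hE, Finsupp.add_apply, Finsupp.add_apply, divOf_apply]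
  have hEnn : ∀ v, 0 ≤ E v := fun v => by
    rw [hEapp, hord]
    have := hE0 v
    rw [Finsupp.add_apply] at this
    exact this
  -- push forward
  obtain ⟨h, hh0, hh⟩ := hred
  set f : Fk := h * S.red φ with hf
  have hf0 : f ≠ 0 := mul_ne_zero hh0 hU.red_ne_zero
  set DRb : Divisor k Fk := ∑ i, Finsupp.single (N.Rb i) (1 : ℤ) with hDRb
  have hmapDR : Finsupp.mapDomain S.r DR = DRb := by
    rw [hDR, Finsupp.mapDomain_finsetSum]
    refine Finset.sum_congr rfl fun i _ => ?_
    rw [Finsupp.mapDomain_single, N.r_R]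
  have hmapE : ∀ Q, Finsupp.mapDomain S.r E Q = DRb Q + Q.ord f := by
    intro Q
    rw [hE, Finsupp.mapDomain_add, Finsupp.mapDomain_add, Finsupp.add_apply, Finsupp.add_apply,
      hmapDR, hh Q, push_eq hU Q, Q.ord_mul hh0 hU.red_ne_zero]
    ring
  have hDRb_self : ∀ i, DRb (N.Rb i) = 1 := fun i => sum_single_apply_self N.Rb N.Rb_inj i
  have hDRb_other : ∀ Q, (∀ i, Q ≠ N.Rb i) → DRb Q = 0 := fun Q hQ =>
    sum_single_apply_other N.Rb Q hQ
  have hmapnn : ∀ Q, 0 ≤ Finsupp.mapDomain S.r E Q := fun Q =>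
    mapDomain_nonneg _ _ _ fun P _ => hEnn P
  obtain ⟨c', hc'⟩ := N.nonspecial f hf0
    (fun Q hQ => by
      have := hmapnn Q
      rw [hmapE, hDRb_other Q hQ] at this
      linarith)
    (fun i => by
      have := hmapnn (N.Rb i)
      rw [hmapE, hDRb_self] at this
      linarith)
  have hordf : ∀ Q : Place k Fk, Q.ord f = 0 := fun Q => by
    rw [hc']
    exact Fermat.Agent.S24Res.ord_algebraMap Q c'
  have hmapE' : ∀ Q, Finsupp.mapDomain S.r E Q = DRb Q := fun Q => by
    rw [hmapE, hordf, add_zero]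
  -- choose the points `P i`
  have hex : ∀ i, ∃ P : Place K F, S.r P = N.Rb i ∧ 0 < E P := by
    intro i
    by_contra hcon
    push Not at hcon
    have : Finsupp.mapDomain S.r E (N.Rb i) ≤ 0 := by
      rw [mapDomain_apply_eq_sum]
      apply Finset.sum_nonpos
      intro P _
      split_ifs with h1
      · exact hcon P h1
      · exact le_rfl
    rw [hmapE', hDRb_self] at this
    omega
  choose P hP hPpos using hex
  have hEP : ∀ i, E (P i) = 1 := by
    intro i
    have h1 := le_mapDomain S.r E (N.Rb i) (fun P _ => hEnn P) (P i) (hP i)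
    rw [hmapE', hDRb_self] at h1
    have h2 := hPpos i
    omega
  have hEother : ∀ v, (∀ i, v ≠ P i) → E v = 0 := by
    intro v hv
    by_cases hrv : ∃ i, S.r v = N.Rb i
    · obtain ⟨i, hi⟩ := hrv
      have h1 := add_le_mapDomain S.r E (N.Rb i) (fun P _ => hEnn P) (P i) v (Ne.symm (hv i))
        (hP i) hi
      rw [hmapE', hDRb_self, hEP] at h1
      have h2 := hEnn v
      omega
    · push Not at hrv
      have h1 := le_mapDomain S.r E (S.r v) (fun P _ => hEnn P) v rfl
      rw [hmapE', hDRb_other _ fun i => hrv i] at h1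
      have h2 := hEnn v
      omega
  have hPinj : Function.Injective P := fun i j hij =>
    N.Rb_inj (by rw [← hP i, ← hP j, hij])
  refine ⟨φ, P, hU.ne_zero, hP, fun v => ?_⟩
  have h1 : D v + v.ord φ = E v - DR v := by
    rw [hEapp]
    ring
  rw [h1, Finset.sum_sub_distrib]
  congr 1
  · by_cases hv : ∃ i, v = P i
    · obtain ⟨i, rfl⟩ := hv
      rw [hEP]
      have := sum_single_apply_self P hPinj i
      rw [Finsupp.finsetSum_apply] at this
      exact this.symm
    · push Not at hv
      rw [hEother v hv]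
      have := sum_single_apply_other P v hv
      rw [Finsupp.finsetSum_apply] at this
      exact this.symm
  · rw [hDR, Finsupp.finsetSum_apply]

end Fermat.Agent.S18Key
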